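import Mathlib
import Fermat.Agent.S17.R.Riemann
import Fermat.Agent.S17.R.Places
import Fermat.Agent.S17.H.Pairing.Core

/-!
# Program MW (statement S17), strand H, block E: the moving lemma for effective divisors

Level-free: `F / K` a function field of one variable over an algebraically closed field `K` of
characteristic zero, `v₀` a place (the base point).

* `ptClass htr v₀ P` : the class of `P - v₀` in `Pic0 K F`.
* `exists_effective_avoiding` : there is `n` such that every divisor `D` of degree zero is
  linearly equivalent to `A - n v₀` with `A ≥ 0` of degree `n` vanishing on a given finite set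
  of places (Riemann's theorem in large degree + a vector space over an infinite field is not a
  finite union of proper subspaces).
* `ptsOf A` : the multiset of the points of an effective divisor; `card_ptsOf`, `mem_ptsOf`,
  `cls_ptsOf` : the dictionary between effective divisors and multisets of points.
* `moving_ptClass` : the hypothesis `Pairing.Moving (ptClass htr v₀) n₀` of block E.
-/

set_option autoImplicit false

namespace Fermat.Agent.S17.H.MovingEff

open AlgebraicCurve Fermat.Agent.S17.R

variable {K F : Type*} [Field K] [Field F] [Algebra K F]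

/-- The multiset of the points of an effective divisor (with multiplicities). -/
noncomputable def ptsOf (A : Divisor K F) : Multiset (Place K F) :=
  ∑ v ∈ A.support, (A v).toNat • ({v} : Multiset (Place K F))

theorem mem_ptsOf {A : Divisor K F} {P : Place K F} (h : P ∈ ptsOf A) : A P ≠ 0 := by
  unfold ptsOf at h
  obtain ⟨v, hv, hP⟩ := Multiset.mem_sum.mp h
  have h1 := Multiset.mem_of_mem_nsmul hP
  rw [Multiset.mem_singleton] at h1
  rw [h1]
  exact Finsupp.mem_support_iff.mp hv

variable [IsAlgClosed K]

theorem single_sub_single_mem_degZero (htr : Algebra.trdeg K F = 1) (v₀ P : Place K F) :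
    Finsupp.single P (1 : ℤ) - Finsupp.single v₀ 1 ∈ Divisor.degZero (K := K) (F := F) := by
  rw [Divisor.mem_degZero, map_sub, Divisor.degree_single, Divisor.degree_single,
    Fermat.Agent.S24.FF.deg_eq_one htr P, Fermat.Agent.S24.FF.deg_eq_one htr v₀]
  simp

/-- The class of the point `P` with respect to the base point `v₀`: the class of `P - v₀`. -/
noncomputable def ptClass (htr : Algebra.trdeg K F = 1) (v₀ P : Place K F) : Pic0 K F :=
  Pic0.mk ⟨Finsupp.single P 1 - Finsupp.single v₀ 1, single_sub_single_mem_degZero htr v₀ P⟩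

variable [CharZero K] [Algebra.EssFiniteType K F]

theorem degree_eq_sum_support (htr : Algebra.trdeg K F = 1) (A : Divisor K F) :
    Divisor.degree A = ∑ v ∈ A.support, A v := by
  rw [Fermat.Agent.S24.FF.degree_eq_finsum htr A]
  exact finsum_eq_sum_of_support_subset _ (by intro v hv; simpa using hv)

/-- Every divisor of degree zero is linearly equivalent to `A - n v₀`, `A ≥ 0` of degree `n`
vanishing on a given finite set of places. -/
theorem exists_effective_avoiding (htr : Algebra.trdeg K F = 1) (v₀ : Place K F) :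
    ∃ n : ℕ, ∀ D ∈ Divisor.degZero (K := K) (F := F), ∀ S : Finset (Place K F),
      ∃ A : Divisor K F, 0 ≤ A ∧ Divisor.degree A = n ∧
        (A - Finsupp.single v₀ (n : ℤ)) - D ∈ Divisor.principal (K := K) (F := F) ∧
        ∀ P ∈ S, A P = 0 := by
  classical
  obtain ⟨c, hc⟩ := riemann_eq_of_large (K := K) (F := F) htr
  obtain ⟨n, hn1, hn2⟩ : ∃ n : ℕ, c + 1 ≤ (n : ℤ) ∧ (gR K F : ℤ) + 1 ≤ (n : ℤ) := by
    refine ⟨c.toNat + gR K F + 1, ?_, ?_⟩
    · have := Int.self_le_toNat c
      push_cast
      omega
    · push_cast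
      omega
  refine ⟨n, ?_⟩
  intro D hD S
  obtain ⟨A₀, hA₀⟩ : ∃ A₀ : Divisor K F, A₀ = D + Finsupp.single v₀ (n : ℤ) := ⟨_, rfl⟩
  have hdegA₀ : Divisor.degree A₀ = n := by
    rw [hA₀, map_add, Divisor.mem_degZero.mp hD, Divisor.degree_single,
      Fermat.Agent.S24.FF.deg_eq_one htr v₀]
    simp
  have := finite_L htr A₀
  have hl : (Module.finrank K ↥(riemannRochSpace A₀) : ℤ) = n + 1 - gR K F := by
    rw [hc A₀ (by rw [hdegA₀]; omega), hdegA₀]
  have hlP : ∀ P : Place K F,
      (Module.finrank K ↥(riemannRochSpace (A₀ - Finsupp.single P 1)) : ℤ) = n - gR K F := by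
    intro P
    have hd : Divisor.degree (A₀ - Finsupp.single P 1) = n - 1 := by
      rw [map_sub, hdegA₀, Divisor.degree_single, Fermat.Agent.S24.FF.deg_eq_one htr P]
      simp
    rw [hc _ (by rw [hd]; omega), hd]
    ring
  obtain ⟨T, hT⟩ : ∃ T : Finset (Place K F), T = insert v₀ S := ⟨_, rfl⟩
  obtain ⟨s, hs⟩ : ∃ s : Finset (Submodule K ↥(riemannRochSpace A₀)), s = T.image fun P =>
      (riemannRochSpace (A₀ - Finsupp.single P 1)).comap (riemannRochSpace A₀).subtype :=
    ⟨_, rfl⟩
  have htop : (⊤ : Submodule K ↥(riemannRochSpace A₀)) ∉ s := by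
    intro htop
    rw [hs] at htop
    obtain ⟨P, -, hP⟩ := Finset.mem_image.mp htop
    have hle : riemannRochSpace A₀ ≤ riemannRochSpace (A₀ - Finsupp.single P 1) := by
      intro f hf
      have h : (⟨f, hf⟩ : ↥(riemannRochSpace A₀)) ∈
          (riemannRochSpace (A₀ - Finsupp.single P 1)).comap (riemannRochSpace A₀).subtype := by
        rw [hP]
        trivial
      exact h
    have := finite_L htr (A₀ - Finsupp.single P 1)
    have h1 := Submodule.finrank_mono hle
    have h2 := hlP P
    omega
  have hne := Subspace.biUnion_ne_univ_of_top_notMem htop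
  obtain ⟨f, hf⟩ := (Set.ne_univ_iff_exists_notMem _).mp hne
  have hfP : ∀ P ∈ T, (f : F) ∉ riemannRochSpace (A₀ - Finsupp.single P 1) := by
    intro P hP hmem
    apply hf
    simp only [Set.mem_iUnion]
    refine ⟨(riemannRochSpace (A₀ - Finsupp.single P 1)).comap (riemannRochSpace A₀).subtype,
      ?_, hmem⟩
    rw [hs]
    exact Finset.mem_image_of_mem _ hP
  have hv₀T : v₀ ∈ T := by
    rw [hT]
    exact Finset.mem_insert_self _ _
  have hf0 : (f : F) ≠ 0 := fun h => hfP v₀ hv₀T (h ▸ Submodule.zero_mem _)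
  have h1 : ∀ v : Place K F, -A₀ v ≤ v.ord (f : F) := (mem_L_of_ne_zero hf0).mp f.2
  have hordP : ∀ P ∈ T, P.ord (f : F) = -A₀ P := by
    intro P hP
    have h2 := hfP P hP
    rw [mem_L_of_ne_zero hf0] at h2
    simp only [not_forall, not_le] at h2
    obtain ⟨v, hv⟩ := h2
    by_cases hvP : v = P
    · subst hvP
      rw [Finsupp.sub_apply, Finsupp.single_eq_same] at hv
      have := h1 v
      omega
    · rw [Finsupp.sub_apply, Finsupp.single_eq_of_ne hvP, sub_zero] at hv
      have := h1 v
      omega
  refine ⟨A₀ + divOf K (f : F), ?_, ?_, ?_, ?_⟩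
  · rw [Finsupp.le_def]
    intro v
    rw [Finsupp.add_apply, divOf_apply htr, Finsupp.zero_apply]
    have := h1 v
    omega
  · rw [map_add, hdegA₀, degree_divOf htr, add_zero]
  · have h : A₀ + divOf K (f : F) - Finsupp.single v₀ (n : ℤ) - D = divOf K (f : F) := by
      have h' : D = A₀ - Finsupp.single v₀ (n : ℤ) := by
        rw [hA₀]
        abel
      rw [h']
      abel
    rw [h]
    exact divOf_mem_principal htr hf0
  · intro P hP
    have hPT : P ∈ T := by
      rw [hT]
      exact Finset.mem_insert_of_mem hP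
    rw [Finsupp.add_apply, divOf_apply htr, hordP P hPT]
    omega

theorem card_ptsOf (htr : Algebra.trdeg K F = 1) {A : Divisor K F} (hA : 0 ≤ A) :
    ((ptsOf A).card : ℤ) = Divisor.degree A := by
  rw [degree_eq_sum_support htr A]
  unfold ptsOf
  rw [Multiset.card_sum]
  push_cast
  refine Finset.sum_congr rfl fun v _ => ?_
  rw [Multiset.card_nsmul, Multiset.card_singleton, mul_one]
  exact Int.toNat_of_nonneg (Finsupp.le_def.mp hA v)

/-- The class of the multiset of points of an effective divisor `A` of degree `n` is the class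
of `A - n v₀`. -/
theorem cls_ptsOf (htr : Algebra.trdeg K F = 1) (v₀ : Place K F) {A : Divisor K F} (hA : 0 ≤ A)
    {n : ℕ} (hn : Divisor.degree A = n)
    (h : A - Finsupp.single v₀ (n : ℤ) ∈ Divisor.degZero (K := K) (F := F)) :
    Pairing.cls (ptClass htr v₀) (ptsOf A) = Pic0.mk ⟨A - Finsupp.single v₀ (n : ℤ), h⟩ := by
  classical
  have e1 : Pairing.cls (ptClass htr v₀) (ptsOf A)
      = ∑ v ∈ A.support, (A v).toNat • ptClass htr v₀ v := by
    unfold Pairing.cls ptsOf
    have e0 : ∀ R : Multiset (Place K F), (R.map (ptClass htr v₀)).sum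
        = (Multiset.sumAddMonoidHom.comp (Multiset.mapAddMonoidHom (ptClass htr v₀))) R :=
      fun _ => rfl
    rw [e0, map_sum]
    refine Finset.sum_congr rfl fun v _ => ?_
    rw [map_nsmul, ← e0, Multiset.map_singleton, Multiset.sum_singleton]
  rw [e1]
  have e2 : (∑ v ∈ A.support, (A v).toNat •
      (⟨Finsupp.single v 1 - Finsupp.single v₀ 1, single_sub_single_mem_degZero htr v₀ v⟩ :
        Divisor.degZero (K := K) (F := F)))
      = ⟨A - Finsupp.single v₀ (n : ℤ), h⟩ := by
    apply Subtype.ext
    rw [AddSubmonoidClass.coe_finsetSum]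
    have e3 : ∀ v ∈ A.support, (((A v).toNat •
        (⟨Finsupp.single v 1 - Finsupp.single v₀ 1, single_sub_single_mem_degZero htr v₀ v⟩ :
          Divisor.degZero (K := K) (F := F)) : Divisor.degZero (K := K) (F := F)) :
          Divisor K F)
        = Finsupp.single v (A v) - Finsupp.single v₀ (A v) := by
      intro v _
      have h0 : ((A v).toNat : ℤ) = A v := Int.toNat_of_nonneg (Finsupp.le_def.mp hA v)
      rw [AddSubgroup.coe_nsmul, smul_sub, Finsupp.smul_single, Finsupp.smul_single,
        nsmul_eq_mul, mul_one, h0]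
    rw [Finset.sum_congr rfl e3, Finset.sum_sub_distrib]
    have e4 : ∑ v ∈ A.support, Finsupp.single v (A v) = A := Finsupp.sum_single A
    have e5 : ∑ v ∈ A.support, Finsupp.single v₀ (A v) = Finsupp.single v₀ (n : ℤ) := by
      rw [← Finsupp.single_finsetSum, ← degree_eq_sum_support htr A, hn]
    rw [e4, e5]
  rw [← e2]
  unfold ptClass Pic0.mk
  rw [QuotientAddGroup.mk_sum]
  refine Finset.sum_congr rfl fun v _ => ?_
  rw [QuotientAddGroup.mk_nsmul]

/-- **(MOV)** of block E: every class of `Pic0 K F` is the class of an effective divisor of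
degree at most `n₀` avoiding a given finite set of places. -/
theorem moving_ptClass (htr : Algebra.trdeg K F = 1) (v₀ : Place K F) :
    ∃ n₀ : ℕ, Pairing.Moving (ptClass htr v₀) n₀ := by
  obtain ⟨n, hn⟩ := exists_effective_avoiding htr v₀
  refine ⟨n, fun x S => ?_⟩
  obtain ⟨D, rfl⟩ := Pic0.mk_surjective x
  obtain ⟨A, hA0, hAdeg, hAP, hAS⟩ := hn D.1 D.2 S
  have hmem : A - Finsupp.single v₀ (n : ℤ) ∈ Divisor.degZero (K := K) (F := F) := by
    rw [Divisor.mem_degZero, map_sub, hAdeg, Divisor.degree_single,
      Fermat.Agent.S24.FF.deg_eq_one htr v₀]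
    simp
  refine ⟨ptsOf A, ?_, ?_, fun r hr hrS => mem_ptsOf hr (hAS r hrS)⟩
  · have := card_ptsOf htr hA0
    rw [hAdeg] at this
    exact le_of_eq (by exact_mod_cast this)
  · rw [cls_ptsOf htr v₀ hA0 hAdeg hmem]
    unfold Pic0.mk
    rw [QuotientAddGroup.eq, AddSubgroup.mem_addSubgroupOf]
    have hcoe : ((-(⟨A - Finsupp.single v₀ (n : ℤ), hmem⟩ :
        Divisor.degZero (K := K) (F := F)) + D : Divisor.degZero (K := K) (F := F)) :
        Divisor K F) = -((A - Finsupp.single v₀ (n : ℤ)) - D.1) := by
      show -(A - Finsupp.single v₀ (n : ℤ)) + D.1 = -((A - Finsupp.single v₀ (n : ℤ)) - D.1)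
      abel
    rw [hcoe]
    exact (Divisor.principal (K := K) (F := F)).neg_mem hAP

end Fermat.Agent.S17.H.MovingEff
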