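import Mathlib.Algebra.BigOperators.Finsupp.Basic
import Mathlib.Algebra.Order.BigOperators.Group.Finset
import Mathlib.Algebra.Order.AbsoluteValue.Basic
import Mathlib.Data.Real.Basic
import Mathlib.GroupTheory.QuotientGroup.Basic
import Mathlib.Tactic.Abel
import Mathlib.Tactic.Linarith
import Mathlib.Tactic.Ring

/-!
# Program MW (statement S17), strand H: a pairing on divisor classes from a pairing of points

Let `X` be a set of points, `b : X → X → ℝ` a symmetric function, `D₀` and `P` two subgroups of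
the free abelian group on `X` (in the application: the divisors of degree zero and the principal
divisors of a curve, `b` the height of a pair of distinct points with respect to the diagonal).
Extend `b` bilinearly to `pair b D E`.

Only the values of `b` at pairs of DISTINCT points are used: a class is always represented by two
divisors with disjoint supports.  The two hypotheses are

* `UDOff b D₀ P`: a divisor of `P` of bounded norm pairs boundedly with every divisor of `D₀` of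
  bounded norm whose support is disjoint from it;
* `Moving D₀ P B₀`: every class of `D₀` modulo `P` has a representative of norm at most `B₀`
  whose support avoids a given finite set.

`exists_quasi_quadratic` then gives a function `q` on `D₀ ⧸ P` which satisfies the parallelogram
law up to a bounded error and is equal, up to a bounded error, to `-pair b D D'` for EVERY pair
`D`, `D'` of representatives of bounded norm with disjoint supports.
-/

set_option autoImplicit false

namespace Fermat.Agent.S17.H.ClassPairing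

variable {X : Type*}

/-- The `ℓ¹`-norm of a divisor. -/
noncomputable def norm1 (D : X →₀ ℤ) : ℕ := D.sum fun _ n => n.natAbs

/-- The bilinear extension to divisors of a pairing of points. -/
noncomputable def pair (b : X → X → ℝ) (D E : X →₀ ℤ) : ℝ :=
  D.sum fun x m => E.sum fun y n => (m : ℝ) * (n : ℝ) * b x y

theorem norm1_eq_sum {D : X →₀ ℤ} {s : Finset X} (hs : D.support ⊆ s) :
    norm1 D = ∑ x ∈ s, (D x).natAbs :=
  Finsupp.sum_of_support_subset D hs _ (fun _ _ => by simp)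

theorem norm1_add_le (D E : X →₀ ℤ) : norm1 (D + E) ≤ norm1 D + norm1 E := by
  classical
  have h1 := norm1_eq_sum (D := D + E) (s := D.support ∪ E.support) Finsupp.support_add
  have h2 := norm1_eq_sum (D := D) (s := D.support ∪ E.support) Finset.subset_union_left
  have h3 := norm1_eq_sum (D := E) (s := D.support ∪ E.support) Finset.subset_union_right
  rw [h1, h2, h3, ← Finset.sum_add_distrib]
  exact Finset.sum_le_sum fun x _ => by
    simpa using Int.natAbs_add_le (D x) (E x)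

theorem norm1_neg (D : X →₀ ℤ) : norm1 (-D) = norm1 D := by
  rw [norm1_eq_sum (D := -D) (s := D.support) (by rw [Finsupp.support_neg]),
    norm1_eq_sum (D := D) (s := D.support) (le_refl _)]
  exact Finset.sum_congr rfl fun x _ => by simp

theorem norm1_sub_le (D E : X →₀ ℤ) : norm1 (D - E) ≤ norm1 D + norm1 E := by
  rw [sub_eq_add_neg]
  exact (norm1_add_le D (-E)).trans (by rw [norm1_neg])

theorem pair_zero_left (b : X → X → ℝ) (E : X →₀ ℤ) : pair b 0 E = 0 := by
  simp [pair]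

theorem pair_zero_right (b : X → X → ℝ) (D : X →₀ ℤ) : pair b D 0 = 0 := by
  simp [pair]

theorem pair_add_left (b : X → X → ℝ) (D D' E : X →₀ ℤ) :
    pair b (D + D') E = pair b D E + pair b D' E := by
  classical
  unfold pair
  rw [Finsupp.sum_add_index']
  · intro x
    simp
  · intro x m n
    rw [← Finsupp.sum_add]
    refine Finsupp.sum_congr fun y _ => ?_
    push_cast
    ring

theorem pair_add_right (b : X → X → ℝ) (D E E' : X →₀ ℤ) :
    pair b D (E + E') = pair b D E + pair b D E' := by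
  classical
  unfold pair
  rw [← Finsupp.sum_add]
  refine Finsupp.sum_congr fun x _ => ?_
  rw [Finsupp.sum_add_index']
  · intro y
    simp
  · intro y m n
    push_cast
    ring

theorem pair_neg_left (b : X → X → ℝ) (D E : X →₀ ℤ) : pair b (-D) E = -pair b D E := by
  have h := pair_add_left b (-D) D E
  rw [neg_add_cancel, pair_zero_left] at h
  linarith

theorem pair_neg_right (b : X → X → ℝ) (D E : X →₀ ℤ) : pair b D (-E) = -pair b D E := by
  have h := pair_add_right b D (-E) E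
  rw [neg_add_cancel, pair_zero_right] at h
  linarith

theorem pair_sub_left (b : X → X → ℝ) (D D' E : X →₀ ℤ) :
    pair b (D - D') E = pair b D E - pair b D' E := by
  rw [sub_eq_add_neg, pair_add_left, pair_neg_left]
  ring

theorem pair_sub_right (b : X → X → ℝ) (D E E' : X →₀ ℤ) :
    pair b D (E - E') = pair b D E - pair b D E' := by
  rw [sub_eq_add_neg, pair_add_right, pair_neg_right]
  ring

theorem pair_comm (b : X → X → ℝ) (hb : ∀ x y, b x y = b y x) (D E : X →₀ ℤ) :
    pair b D E = pair b E D := by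
  unfold pair
  rw [Finsupp.sum_comm]
  refine Finsupp.sum_congr fun y _ => Finsupp.sum_congr fun x _ => ?_
  rw [hb x y]
  ring

theorem disjoint_support_add {a c : X →₀ ℤ} {S : Finset X} (h : Disjoint a.support S)
    (h' : Disjoint c.support S) : Disjoint (a + c).support S := by
  classical
  exact Finset.disjoint_of_subset_left Finsupp.support_add
    (Finset.disjoint_union_left.mpr ⟨h, h'⟩)

theorem disjoint_support_sub {a c : X →₀ ℤ} {S : Finset X} (h : Disjoint a.support S)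
    (h' : Disjoint c.support S) : Disjoint (a - c).support S := by
  classical
  exact Finset.disjoint_of_subset_left Finsupp.support_sub
    (Finset.disjoint_union_left.mpr ⟨h, h'⟩)

/-- `(UD-off)`: a divisor of `P` of bounded norm pairs boundedly with every divisor of `D₀` of
bounded norm whose support is disjoint from its own. -/
def UDOff (b : X → X → ℝ) (D₀ P : AddSubgroup (X →₀ ℤ)) : Prop :=
  ∀ B : ℕ, ∃ C : ℝ, ∀ D ∈ P, ∀ E ∈ D₀, norm1 D ≤ B → norm1 E ≤ B →
    Disjoint D.support E.support → |pair b D E| ≤ C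

/-- The moving lemma: every class of `D₀` modulo `P` has a representative of norm at most `B₀`
whose support avoids a given finite set. -/
def Moving (D₀ P : AddSubgroup (X →₀ ℤ)) (B₀ : ℕ) : Prop :=
  ∀ D ∈ D₀, ∀ S : Finset X, ∃ D' ∈ D₀, D' - D ∈ P ∧ norm1 D' ≤ B₀ ∧ Disjoint D'.support S

theorem mk_eq_mk_iff (D₀ P : AddSubgroup (X →₀ ℤ)) (D D' : ↥D₀) :
    (QuotientAddGroup.mk D' : ↥D₀ ⧸ P.addSubgroupOf D₀) = QuotientAddGroup.mk D ↔
      D'.1 - D.1 ∈ P := by
  rw [QuotientAddGroup.eq, AddSubgroup.mem_addSubgroupOf]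
  have h : ((-D' + D : ↥D₀) : X →₀ ℤ) = -(D'.1 - D.1) := by
    show -D'.1 + D.1 = -(D'.1 - D.1)
    abel
  rw [h, neg_mem_iff]

/-- The pairing of two classes does not depend, up to a bounded error, on the pair of
representatives of bounded norm with disjoint supports. -/
theorem pair_wd (b : X → X → ℝ) (hb : ∀ x y, b x y = b y x) (D₀ P : AddSubgroup (X →₀ ℤ))
    (hU : UDOff b D₀ P) (B₀ : ℕ) (hM : Moving D₀ P B₀) (B : ℕ) :
    ∃ C : ℝ, ∀ D₁ ∈ D₀, ∀ D₂ ∈ D₀, ∀ E₁ ∈ D₀, ∀ E₂ ∈ D₀,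
      norm1 D₁ ≤ B → norm1 D₂ ≤ B → norm1 E₁ ≤ B → norm1 E₂ ≤ B →
      D₂ - D₁ ∈ P → E₂ - E₁ ∈ P → Disjoint D₁.support E₁.support →
      Disjoint D₂.support E₂.support → |pair b D₁ E₁ - pair b D₂ E₂| ≤ C := by
  classical
  obtain ⟨C, hC⟩ := hU (2 * B + B₀)
  refine ⟨3 * C, ?_⟩
  intro D₁ hD₁ D₂ hD₂ E₁ hE₁ E₂ hE₂ n1 n2 n3 n4 hD hE d1 d2
  obtain ⟨D₃, hD₃, hD₃P, n5, d3⟩ := hM D₁ hD₁ (E₁.support ∪ E₂.support)
  rw [Finset.disjoint_union_right] at d3
  have s1 : |pair b (D₁ - D₃) E₁| ≤ C := by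
    refine hC _ ?_ _ hE₁ ?_ ?_ ?_
    · have h : D₁ - D₃ = -(D₃ - D₁) := by abel
      rw [h]
      exact P.neg_mem hD₃P
    · exact (norm1_sub_le _ _).trans (by omega)
    · omega
    · exact disjoint_support_sub d1 d3.1
  have s2 : |pair b (E₁ - E₂) D₃| ≤ C := by
    refine hC _ ?_ _ hD₃ ?_ ?_ ?_
    · have h : E₁ - E₂ = -(E₂ - E₁) := by abel
      rw [h]
      exact P.neg_mem hE
    · exact (norm1_sub_le _ _).trans (by omega)
    · omega
    · exact disjoint_support_sub d3.1.symm d3.2.symm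
  have s3 : |pair b (D₃ - D₂) E₂| ≤ C := by
    refine hC _ ?_ _ hE₂ ?_ ?_ ?_
    · have h : D₃ - D₂ = (D₃ - D₁) - (D₂ - D₁) := by abel
      rw [h]
      exact P.sub_mem hD₃P hD
    · exact (norm1_sub_le _ _).trans (by omega)
    · omega
    · exact disjoint_support_sub d3.2 d2
  have e : pair b D₁ E₁ - pair b D₂ E₂
      = pair b (D₁ - D₃) E₁ + pair b (E₁ - E₂) D₃ + pair b (D₃ - D₂) E₂ := by
    rw [pair_comm b hb (E₁ - E₂) D₃, pair_sub_left, pair_sub_left, pair_sub_right]
    ring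
  rw [e]
  have h3 := abs_add_three (pair b (D₁ - D₃) E₁) (pair b (E₁ - E₂) D₃) (pair b (D₃ - D₂) E₂)
  linarith

theorem para_arith {s d u w p1 p2 p3 p4 C : ℝ} (k1 : |s + p1| ≤ C) (k2 : |d + p2| ≤ C)
    (k3 : |u + p3| ≤ C) (k4 : |w + p4| ≤ C) (e : p1 + p2 = 2 * p3 + 2 * p4) :
    |s + d - 2 * (u + w)| ≤ 6 * C := by
  rw [abs_le] at k1 k2 k3 k4 ⊢
  constructor <;> linarith [k1.1, k1.2, k2.1, k2.2, k3.1, k3.2, k4.1, k4.2]

/-- A symmetric pairing of points with `(UD-off)` and the moving lemma gives a function on the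
classes which satisfies the parallelogram law up to a bounded error, and which is, up to a bounded
error, `-pair b D D'` for every pair of representatives of bounded norm with disjoint supports. -/
theorem exists_quasi_quadratic (b : X → X → ℝ) (hb : ∀ x y, b x y = b y x)
    (D₀ P : AddSubgroup (X →₀ ℤ)) (hU : UDOff b D₀ P) (B₀ : ℕ) (hM : Moving D₀ P B₀) :
    ∃ (q : (↥D₀ ⧸ P.addSubgroupOf D₀) → ℝ) (C : ℝ),
      (∀ x y, |q (x + y) + q (x - y) - 2 * (q x + q y)| ≤ C) ∧
      ∀ B : ℕ, ∃ C' : ℝ, ∀ D D' : ↥D₀, norm1 D.1 ≤ B → norm1 D'.1 ≤ B →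
        Disjoint D.1.support D'.1.support → D'.1 - D.1 ∈ P →
        |q (QuotientAddGroup.mk D) + pair b D.1 D'.1| ≤ C' := by
  classical
  -- two representatives with disjoint supports for every class
  have hrep : ∀ x : ↥D₀ ⧸ P.addSubgroupOf D₀, ∃ r : ↥D₀ × ↥D₀,
      QuotientAddGroup.mk r.1 = x ∧ QuotientAddGroup.mk r.2 = x ∧ norm1 r.1.1 ≤ B₀ ∧
        norm1 r.2.1 ≤ B₀ ∧ Disjoint r.1.1.support r.2.1.support := by
    intro x
    obtain ⟨D, rfl⟩ := QuotientAddGroup.mk_surjective x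
    obtain ⟨a, ha, haP, na, -⟩ := hM D.1 D.2 ∅
    obtain ⟨a', ha', haP', na', da'⟩ := hM D.1 D.2 a.support
    exact ⟨(⟨a, ha⟩, ⟨a', ha'⟩), (mk_eq_mk_iff D₀ P D ⟨a, ha⟩).mpr haP,
      (mk_eq_mk_iff D₀ P D ⟨a', ha'⟩).mpr haP', na, na', da'.symm⟩
  choose r hr1 hr2 hn1 hn2 hd using hrep
  let q : (↥D₀ ⧸ P.addSubgroupOf D₀) → ℝ := fun x => -pair b (r x).1.1 (r x).2.1
  have hchar : ∀ B : ℕ, ∃ C' : ℝ, ∀ (D : X →₀ ℤ) (hD : D ∈ D₀) (D' : X →₀ ℤ), D' ∈ D₀ →
      norm1 D ≤ B → norm1 D' ≤ B → Disjoint D.support D'.support → D' - D ∈ P →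
      |q (QuotientAddGroup.mk ⟨D, hD⟩) + pair b D D'| ≤ C' := by
    intro B
    obtain ⟨C, hC⟩ := pair_wd b hb D₀ P hU B₀ hM (max B B₀)
    refine ⟨C, fun D hD D' hD' nD nD' dd hDD' => ?_⟩
    have g1 := hr1 (QuotientAddGroup.mk ⟨D, hD⟩)
    have g2 := hr2 (QuotientAddGroup.mk ⟨D, hD⟩)
    have g3 := hn1 (QuotientAddGroup.mk ⟨D, hD⟩)
    have g4 := hn2 (QuotientAddGroup.mk ⟨D, hD⟩)
    have g5 := hd (QuotientAddGroup.mk ⟨D, hD⟩)
    show |-pair b (r (QuotientAddGroup.mk ⟨D, hD⟩)).1.1 (r (QuotientAddGroup.mk ⟨D, hD⟩)).2.1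
      + pair b D D'| ≤ C
    generalize r (QuotientAddGroup.mk ⟨D, hD⟩) = rr at g1 g2 g3 g4 g5 ⊢
    have h1 : rr.1.1 - D ∈ P := (mk_eq_mk_iff D₀ P ⟨D, hD⟩ rr.1).mp g1
    have h2 : rr.2.1 - D ∈ P := (mk_eq_mk_iff D₀ P ⟨D, hD⟩ rr.2).mp g2
    have h3 : rr.2.1 - D' ∈ P := by
      have h : rr.2.1 - D' = (rr.2.1 - D) - (D' - D) := by abel
      rw [h]
      exact P.sub_mem h2 hDD'
    have h4 := hC D hD rr.1.1 rr.1.2 D' hD' rr.2.1 rr.2.2 (nD.trans (le_max_left _ _))
      (g3.trans (le_max_right _ _)) (nD'.trans (le_max_left _ _))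
      (g4.trans (le_max_right _ _)) h1 h3 dd g5
    rw [neg_add_eq_sub]
    exact h4
  obtain ⟨C', hC'⟩ := hchar (2 * B₀)
  refine ⟨q, 6 * C', ?_, fun B => ?_⟩
  swap
  · obtain ⟨C₂, hC₂⟩ := hchar B
    exact ⟨C₂, fun D D' nD nD' dd hDD' => hC₂ D.1 D.2 D'.1 D'.2 nD nD' dd hDD'⟩
  intro x y
  obtain ⟨D, rfl⟩ := QuotientAddGroup.mk_surjective x
  obtain ⟨E, rfl⟩ := QuotientAddGroup.mk_surjective y
  obtain ⟨a, ha, haP, na, -⟩ := hM D.1 D.2 ∅
  obtain ⟨c, hc, hcP, nc, dc⟩ := hM E.1 E.2 a.support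
  obtain ⟨a', ha', haP', na', da'⟩ := hM D.1 D.2 (a.support ∪ c.support)
  obtain ⟨c', hc', hcP', nc', dc'⟩ := hM E.1 E.2 (a.support ∪ c.support ∪ a'.support)
  rw [Finset.disjoint_union_right] at da'
  rw [Finset.disjoint_union_right, Finset.disjoint_union_right] at dc'
  have ea : (QuotientAddGroup.mk (⟨a, ha⟩ : ↥D₀) : ↥D₀ ⧸ P.addSubgroupOf D₀)
      = QuotientAddGroup.mk D := (mk_eq_mk_iff D₀ P D ⟨a, ha⟩).mpr haP
  have ec : (QuotientAddGroup.mk (⟨c, hc⟩ : ↥D₀) : ↥D₀ ⧸ P.addSubgroupOf D₀)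
      = QuotientAddGroup.mk E := (mk_eq_mk_iff D₀ P E ⟨c, hc⟩).mpr hcP
  have p1 : a' - a ∈ P := by
    have h : a' - a = (a' - D.1) - (a - D.1) := by abel
    rw [h]
    exact P.sub_mem haP' haP
  have p2 : c' - c ∈ P := by
    have h : c' - c = (c' - E.1) - (c - E.1) := by abel
    rw [h]
    exact P.sub_mem hcP' hcP
  have k1 : |q (QuotientAddGroup.mk D + QuotientAddGroup.mk E) + pair b (a + c) (a' + c')|
      ≤ C' := by
    have h := hC' (a + c) (D₀.add_mem ha hc) (a' + c') (D₀.add_mem ha' hc')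
      ((norm1_add_le a c).trans (by omega)) ((norm1_add_le a' c').trans (by omega))
      (disjoint_support_add
        (Disjoint.symm (disjoint_support_add da'.1 dc'.1.1))
        (Disjoint.symm (disjoint_support_add da'.2 dc'.1.2)))
      (by
        have h : (a' + c') - (a + c) = (a' - a) + (c' - c) := by abel
        rw [h]
        exact P.add_mem p1 p2)
    have h' : (⟨a + c, D₀.add_mem ha hc⟩ : ↥D₀) = ⟨a, ha⟩ + ⟨c, hc⟩ := rfl
    rw [h', QuotientAddGroup.mk_add, ea, ec] at h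
    exact h
  have k2 : |q (QuotientAddGroup.mk D - QuotientAddGroup.mk E) + pair b (a - c) (a' - c')|
      ≤ C' := by
    have h := hC' (a - c) (D₀.sub_mem ha hc) (a' - c') (D₀.sub_mem ha' hc')
      ((norm1_sub_le a c).trans (by omega)) ((norm1_sub_le a' c').trans (by omega))
      (disjoint_support_sub
        (Disjoint.symm (disjoint_support_sub da'.1 dc'.1.1))
        (Disjoint.symm (disjoint_support_sub da'.2 dc'.1.2)))
      (by
        have h : (a' - c') - (a - c) = (a' - a) - (c' - c) := by abel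
        rw [h]
        exact P.sub_mem p1 p2)
    have h' : (⟨a - c, D₀.sub_mem ha hc⟩ : ↥D₀) = ⟨a, ha⟩ - ⟨c, hc⟩ := rfl
    rw [h', QuotientAddGroup.mk_sub, ea, ec] at h
    exact h
  have k3 : |q (QuotientAddGroup.mk D) + pair b a a'| ≤ C' := by
    have h := hC' a ha a' ha' (by omega) (by omega) da'.1.symm p1
    rw [ea] at h
    exact h
  have k4 : |q (QuotientAddGroup.mk E) + pair b c c'| ≤ C' := by
    have h := hC' c hc c' hc' (by omega) (by omega) dc'.1.2.symm p2
    rw [ec] at h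
    exact h
  have e : pair b (a + c) (a' + c') + pair b (a - c) (a' - c')
      = 2 * pair b a a' + 2 * pair b c c' := by
    rw [pair_add_left, pair_add_right, pair_add_right, pair_sub_left, pair_sub_right,
      pair_sub_right]
    ring
  exact para_arith k1 k2 k3 k4 e

/-- `(UD-off)` from its pointwise form: if for every divisor `D` of `P` of bounded norm and
every finite set `S` of points off the support of `D` the function `Q ↦ ∑ D(x) b(x, Q)` is
constant on `S` up to a bounded error, and the divisors of `D₀` have degree zero, then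
`UDOff b D₀ P` holds. -/
theorem udOff_of_pointwise (b : X → X → ℝ) (D₀ P : AddSubgroup (X →₀ ℤ))
    (hdeg : ∀ E ∈ D₀, (E.sum fun _ n => n) = 0)
    (hG : ∀ B : ℕ, ∃ C : ℝ, ∀ D ∈ P, norm1 D ≤ B → ∀ S : Finset X, Disjoint D.support S →
      ∃ c : ℝ, ∀ Q ∈ S, |(D.sum fun x m => (m : ℝ) * b x Q) - c| ≤ C) :
    UDOff b D₀ P := by
  classical
  intro B
  obtain ⟨C, hC⟩ := hG B
  refine ⟨B * |C|, fun D hD E hE nD nE dd => ?_⟩
  obtain ⟨c, hc⟩ := hC D hD nD E.support dd
  have e1 : pair b D E = E.sum fun Q n => (n : ℝ) * (D.sum fun x m => (m : ℝ) * b x Q) := by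
    unfold pair
    rw [Finsupp.sum_comm]
    refine Finsupp.sum_congr fun Q _ => ?_
    rw [Finsupp.mul_sum]
    refine Finsupp.sum_congr fun x _ => ?_
    ring
  have e2 : (E.sum fun _ n => (n : ℝ) * c) = 0 := by
    have h : (E.sum fun _ n => (n : ℝ) * c) = ((E.sum fun _ n => n : ℤ) : ℝ) * c := by
      simp only [Finsupp.sum, Int.cast_sum, Finset.sum_mul]
    rw [h, hdeg E hE]
    simp
  have e3 : pair b D E
      = E.sum fun Q n => (n : ℝ) * ((D.sum fun x m => (m : ℝ) * b x Q) - c) := by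
    rw [e1]
    have h : (E.sum fun Q n => (n : ℝ) * ((D.sum fun x m => (m : ℝ) * b x Q) - c))
        = (E.sum fun Q n => (n : ℝ) * (D.sum fun x m => (m : ℝ) * b x Q))
          - E.sum fun _ n => (n : ℝ) * c := by
      rw [← Finsupp.sum_sub]
      refine Finsupp.sum_congr fun Q _ => ?_
      ring
    rw [h, e2, sub_zero]
  rw [e3]
  unfold Finsupp.sum
  calc |∑ Q ∈ E.support, ((E Q : ℤ) : ℝ) * ((D.sum fun x m => (m : ℝ) * b x Q) - c)|
      ≤ ∑ Q ∈ E.support, |((E Q : ℤ) : ℝ) * ((D.sum fun x m => (m : ℝ) * b x Q) - c)| :=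
        Finset.abs_sum_le_sum_abs _ _
    _ ≤ ∑ Q ∈ E.support, (((E Q).natAbs : ℕ) : ℝ) * |C| := by
        refine Finset.sum_le_sum fun Q hQ => ?_
        rw [abs_mul]
        have h1 : |((E Q : ℤ) : ℝ)| = (((E Q).natAbs : ℕ) : ℝ) := by
          rw [Nat.cast_natAbs, Int.cast_abs]
        rw [h1]
        exact mul_le_mul_of_nonneg_left ((hc Q hQ).trans (le_abs_self C)) (Nat.cast_nonneg _)
    _ = ((norm1 E : ℕ) : ℝ) * |C| := by
        rw [← Finset.sum_mul]
        congr 1
        unfold norm1 Finsupp.sum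
        push_cast
        rfl
    _ ≤ (B : ℝ) * |C| :=
        mul_le_mul_of_nonneg_right (by exact_mod_cast nE) (abs_nonneg C)

end Fermat.Agent.S17.H.ClassPairing
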