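import Fermat.Agent.S17.H.E.ClassPairing

/-!
# Program MW (statement S17), strand H, block E: representatives sharing one point

`ClassPairing.exists_quasi_quadratic` represents a class by two divisors with DISJOINT supports.
On the curve the natural representatives of a class are `A - n ∞` and `A' - n' ∞` with `A`, `A'`
effective and disjoint: their supports meet in the base point `∞ = o` only.  This file gives the
same theorem for pairs of representatives whose supports meet AT MOST in one fixed point `o`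
(`MeetAt o D D'`), under the hypothesis `UDOffAt o b D₀ P` (the bound `(UD)` for a principal
divisor and a divisor of degree zero whose supports meet at most in `o`).

* `exists_quasi_quadratic_at` : the quasi-parallelogram law and `q = -pair b D D' + O(1)` for
  every pair of representatives of bounded norm with `MeetAt o D D'`;
* `udOffAt_of_pointwise` : `UDOffAt` from its pointwise form (the global distance formula at
  the points `Q` of a finite set `S`, where `Q = o` may be a zero or a pole of the function);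
* `pair_single_left`, `pair_single_right` : the pairing with a point.
-/

set_option autoImplicit false

namespace Fermat.Agent.S17.H.ClassPairing

variable {X : Type*}

/-- The supports of `D` and `E` meet at most in the point `o`. -/
def MeetAt (o : X) (D E : X →₀ ℤ) : Prop := ∀ x, D x ≠ 0 → E x ≠ 0 → x = o

theorem MeetAt.of_disjoint {o : X} {D E : X →₀ ℤ} (h : Disjoint D.support E.support) :
    MeetAt o D E := by
  intro x hD hE
  exact absurd (Finsupp.mem_support_iff.mpr hE)
    (Finset.disjoint_left.mp h (Finsupp.mem_support_iff.mpr hD))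

theorem MeetAt.symm {o : X} {D E : X →₀ ℤ} (h : MeetAt o D E) : MeetAt o E D :=
  fun x hE hD => h x hD hE

/-- `(UD)` for a principal divisor and a divisor of degree zero whose supports meet at most in
the point `o`. -/
def UDOffAt (o : X) (b : X → X → ℝ) (D₀ P : AddSubgroup (X →₀ ℤ)) : Prop :=
  ∀ B : ℕ, ∃ C : ℝ, ∀ D ∈ P, ∀ E ∈ D₀, norm1 D ≤ B → norm1 E ≤ B → MeetAt o D E →
    |pair b D E| ≤ C

theorem udOff_of_udOffAt {o : X} {b : X → X → ℝ} {D₀ P : AddSubgroup (X →₀ ℤ)}
    (h : UDOffAt o b D₀ P) : UDOff b D₀ P := by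
  intro B
  obtain ⟨C, hC⟩ := h B
  exact ⟨C, fun D hD E hE n1 n2 dd => hC D hD E hE n1 n2 (MeetAt.of_disjoint dd)⟩

theorem pair_single_right (b : X → X → ℝ) (D : X →₀ ℤ) (o : X) (n : ℤ) :
    pair b D (Finsupp.single o n) = (n : ℝ) * D.sum fun x m => (m : ℝ) * b x o := by
  unfold pair
  rw [Finsupp.mul_sum]
  refine Finsupp.sum_congr fun x _ => ?_
  rw [Finsupp.sum_single_index (by simp)]
  ring

theorem pair_single_left (b : X → X → ℝ) (o : X) (n : ℤ) (E : X →₀ ℤ) :
    pair b (Finsupp.single o n) E = (n : ℝ) * E.sum fun y m => (m : ℝ) * b o y := by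
  unfold pair
  rw [Finsupp.sum_single_index (by simp), Finsupp.mul_sum]
  refine Finsupp.sum_congr fun y _ => ?_
  ring

theorem abs_add_sub_le {q p r C₁ C₂ : ℝ} (k1 : |q + p| ≤ C₁) (k2 : |r| ≤ C₂) :
    |q + (p - r)| ≤ C₁ + C₂ := by
  rw [abs_le] at k1 k2 ⊢
  constructor <;> linarith [k1.1, k1.2, k2.1, k2.2]

/-- The function `q` of `exists_quasi_quadratic` is `-pair b D D' + O(1)` for every pair of
representatives of bounded norm whose supports meet at most in `o`. -/
theorem exists_quasi_quadratic_at (o : X) (b : X → X → ℝ) (hb : ∀ x y, b x y = b y x)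
    (D₀ P : AddSubgroup (X →₀ ℤ)) (hU : UDOffAt o b D₀ P) (B₀ : ℕ) (hM : Moving D₀ P B₀) :
    ∃ (q : (↥D₀ ⧸ P.addSubgroupOf D₀) → ℝ) (C : ℝ),
      (∀ x y, |q (x + y) + q (x - y) - 2 * (q x + q y)| ≤ C) ∧
      ∀ B : ℕ, ∃ C' : ℝ, ∀ D D' : ↥D₀, norm1 D.1 ≤ B → norm1 D'.1 ≤ B →
        MeetAt o D.1 D'.1 → D'.1 - D.1 ∈ P →
        |q (QuotientAddGroup.mk D) + pair b D.1 D'.1| ≤ C' := by
  classical
  obtain ⟨q, C, hq, hchar⟩ := exists_quasi_quadratic b hb D₀ P (udOff_of_udOffAt hU) B₀ hM
  refine ⟨q, C, hq, fun B => ?_⟩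
  obtain ⟨C₁, hC₁⟩ := hchar (max B B₀)
  obtain ⟨C₂, hC₂⟩ := hU (B + B₀)
  refine ⟨C₁ + C₂, fun D D' nD nD' hmeet hDD' => ?_⟩
  obtain ⟨D'', hD''mem, hD''P, nD'', dD''⟩ := hM D'.1 D'.2 D.1.support
  have hP : D'' - D.1 ∈ P := by
    have h : D'' - D.1 = (D'' - D'.1) + (D'.1 - D.1) := by abel
    rw [h]
    exact P.add_mem hD''P hDD'
  have k1 := hC₁ D ⟨D'', hD''mem⟩ (nD.trans (le_max_left _ _))
    (nD''.trans (le_max_right _ _)) dD''.symm hP
  have k2 : |pair b (D'' - D'.1) D.1| ≤ C₂ := by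
    refine hC₂ _ hD''P D.1 D.2 ((norm1_sub_le _ _).trans (by omega)) (by omega) ?_
    intro x hx hDx
    have h1 : D'' x = 0 := by
      by_contra h
      exact Finset.disjoint_left.mp dD'' (Finsupp.mem_support_iff.mpr h)
        (Finsupp.mem_support_iff.mpr hDx)
    have h2 : D'.1 x ≠ 0 := by
      intro h
      apply hx
      rw [Finsupp.sub_apply, h1, h, sub_zero]
    exact hmeet x hDx h2
  have e : pair b D.1 D'.1 = pair b D.1 D'' - pair b (D'' - D'.1) D.1 := by
    rw [pair_comm b hb (D'' - D'.1) D.1, pair_sub_right]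
    ring
  rw [e]
  exact abs_add_sub_le k1 k2

/-- `UDOffAt` from its pointwise form: for every divisor `D` of `P` of bounded norm and every
finite set `S` of points which meets the support of `D` at most in `o`, the function
`Q ↦ ∑ D(x) b(x, Q)` is constant on `S` up to a bounded error. -/
theorem udOffAt_of_pointwise (o : X) (b : X → X → ℝ) (D₀ P : AddSubgroup (X →₀ ℤ))
    (hdeg : ∀ E ∈ D₀, (E.sum fun _ n => n) = 0)
    (hG : ∀ B : ℕ, ∃ C : ℝ, ∀ D ∈ P, norm1 D ≤ B → ∀ S : Finset X,
      (∀ x ∈ S, D x ≠ 0 → x = o) →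
      ∃ c : ℝ, ∀ Q ∈ S, |(D.sum fun x m => (m : ℝ) * b x Q) - c| ≤ C) :
    UDOffAt o b D₀ P := by
  classical
  intro B
  obtain ⟨C, hC⟩ := hG B
  refine ⟨B * |C|, fun D hD E hE nD nE hmeet => ?_⟩
  obtain ⟨c, hc⟩ := hC D hD nD E.support
    (fun x hx hDx => hmeet x hDx (Finsupp.mem_support_iff.mp hx))
  have e1 : pair b D E = E.sum fun Q n => (n : ℝ) * (D.sum fun x m => (m : ℝ) * b x Q) := by
    unfold pair
    rw [Finsupp.sum_comm]
    refine Finsupp.sum_congr fun Q _ => ?_
    rw [Finsupp.mul_sum]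
    refine Finsupp.sum_congr fun x _ => ?_
    ring
  have e2 : (E.sum fun _ n => (n : ℝ) * c) = 0 := by
    have h : (E.sum fun _ n => (n : ℝ) * c) = ((E.sum fun _ n => n : ℤ) : ℝ) * c := by
      simp only [Finsupp.sum, Int.cast_sum, Finset.sum_mul]
    rw [h, hdeg E hE]
    simp
  have e3 : pair b D E
      = E.sum fun Q n => (n : ℝ) * ((D.sum fun x m => (m : ℝ) * b x Q) - c) := by
    rw [e1]
    have h : (E.sum fun Q n => (n : ℝ) * ((D.sum fun x m => (m : ℝ) * b x Q) - c))
        = (E.sum fun Q n => (n : ℝ) * (D.sum fun x m => (m : ℝ) * b x Q))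
          - E.sum fun _ n => (n : ℝ) * c := by
      rw [← Finsupp.sum_sub]
      refine Finsupp.sum_congr fun Q _ => ?_
      ring
    rw [h, e2, sub_zero]
  rw [e3]
  unfold Finsupp.sum
  calc |∑ Q ∈ E.support, ((E Q : ℤ) : ℝ) * ((D.sum fun x m => (m : ℝ) * b x Q) - c)|
      ≤ ∑ Q ∈ E.support, |((E Q : ℤ) : ℝ) * ((D.sum fun x m => (m : ℝ) * b x Q) - c)| :=
        Finset.abs_sum_le_sum_abs _ _
    _ ≤ ∑ Q ∈ E.support, (((E Q).natAbs : ℕ) : ℝ) * |C| := by
        refine Finset.sum_le_sum fun Q hQ => ?_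
        rw [abs_mul]
        have h1 : |((E Q : ℤ) : ℝ)| = (((E Q).natAbs : ℕ) : ℝ) := by
          rw [Nat.cast_natAbs, Int.cast_abs]
        rw [h1]
        exact mul_le_mul_of_nonneg_left ((hc Q hQ).trans (le_abs_self C)) (Nat.cast_nonneg _)
    _ = ((norm1 E : ℕ) : ℝ) * |C| := by
        rw [← Finset.sum_mul]
        congr 1
        unfold norm1 Finsupp.sum
        push_cast
        rfl
    _ ≤ (B : ℝ) * |C| :=
        mul_le_mul_of_nonneg_right (by exact_mod_cast nE) (abs_nonneg C)

end Fermat.Agent.S17.H.ClassPairing
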