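import Mathlib
import Fermat.Agent.S17.R.Riemann
import Fermat.Agent.S17.R.Places
import Fermat.Agent.S17.H.E.ClassPairing

/-!
# Program MW (statement S17), strand H, block E: denominators for the leaf `hG`

Level-free: `F / K` a function field of one variable over an algebraically closed field `K` of
characteristic zero, `o` a place (the base point `∞`), `V_M = L(M o)`.

* `exists_exact_section` : for a divisor `E` of large degree and a finite set `T` of places there
  is `s ≠ 0` in `L(E)` with `ord_P s = -E P` for every `P ∈ T` (the linear system `|E|` has no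
  base point, and a vector space over an infinite field is not a finite union of hyperplanes).
* `exists_denominator` : a function `f ≠ 0` whose divisor has norm at most `B` is a quotient
  `s / s'` of two sections `s = f s'`, `s'` of `V_M`, `M = M(B)`, such that `s'` (hence `s`) has
  neither zero nor pole at the points `Q ≠ o` of a given finite set `S` off the divisor of `f`.

So the zero divisors `Z(s) = (f)_0 + R` and `Z(s') = (f)_∞ + R` in `V_M` have a common residual
part `R` which avoids `S` away from `o`: this is how the pointwise formula `hG` of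
`EInst.exists_height` follows from the formulas D1 and D2 for `s` and `s'`.
-/

set_option autoImplicit false

namespace Fermat.Agent.S17.H.Denominator

open AlgebraicCurve Fermat.Agent.S17.R Fermat.Agent.S17.H.ClassPairing

variable {K F : Type*} [Field K] [Field F] [Algebra K F]
variable [IsAlgClosed K] [CharZero K] [Algebra.EssFiniteType K F]

theorem degree_eq_sum_support (htr : Algebra.trdeg K F = 1) (A : Divisor K F) :
    Divisor.degree A = ∑ v ∈ A.support, A v := by
  rw [Fermat.Agent.S24.FF.degree_eq_finsum htr A]
  exact finsum_eq_sum_of_support_subset _ (by intro v hv; simpa using hv)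

/-- A section of `L(E)` of exact order `-E P` at every point `P` of a finite set `T`, for `E` of
large degree. -/
theorem exists_exact_section (htr : Algebra.trdeg K F = 1) {c : ℤ}
    (hc : ∀ D : Divisor K F, c ≤ Divisor.degree D →
      (Module.finrank K ↥(riemannRochSpace D) : ℤ) = Divisor.degree D + 1 - (gR K F : ℤ))
    (E : Divisor K F) (hE : c + 1 ≤ Divisor.degree E) (T : Finset (Place K F))
    (hT : T.Nonempty) :
    ∃ s : F, s ≠ 0 ∧ (∀ v : Place K F, -E v ≤ v.ord s) ∧ ∀ P ∈ T, P.ord s = -E P := by
  classical
  have := finite_L htr E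
  have hlP : ∀ P : Place K F,
      (Module.finrank K ↥(riemannRochSpace (E - Finsupp.single P 1)) : ℤ)
        = (Module.finrank K ↥(riemannRochSpace E) : ℤ) - 1 := by
    intro P
    have hd : Divisor.degree (E - Finsupp.single P 1) = Divisor.degree E - 1 := by
      rw [map_sub, Divisor.degree_single, Fermat.Agent.S24.FF.deg_eq_one htr P]
      simp
    rw [hc _ (by rw [hd]; omega), hd, hc E (by omega)]
    ring
  obtain ⟨s, hs⟩ : ∃ s : Finset (Submodule K ↥(riemannRochSpace E)), s = T.image fun P =>
      (riemannRochSpace (E - Finsupp.single P 1)).comap (riemannRochSpace E).subtype :=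
    ⟨_, rfl⟩
  have htop : (⊤ : Submodule K ↥(riemannRochSpace E)) ∉ s := by
    intro htop
    rw [hs] at htop
    obtain ⟨P, -, hP⟩ := Finset.mem_image.mp htop
    have hle : riemannRochSpace E ≤ riemannRochSpace (E - Finsupp.single P 1) := by
      intro f hf
      have h : (⟨f, hf⟩ : ↥(riemannRochSpace E)) ∈
          (riemannRochSpace (E - Finsupp.single P 1)).comap (riemannRochSpace E).subtype := by
        rw [hP]
        trivial
      exact h
    have := finite_L htr (E - Finsupp.single P 1)
    have h1 := Submodule.finrank_mono hle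
    have h2 := hlP P
    omega
  have hne := Subspace.biUnion_ne_univ_of_top_notMem htop
  obtain ⟨f, hf⟩ := (Set.ne_univ_iff_exists_notMem _).mp hne
  have hfP : ∀ P ∈ T, (f : F) ∉ riemannRochSpace (E - Finsupp.single P 1) := by
    intro P hP hmem
    apply hf
    simp only [Set.mem_iUnion]
    refine ⟨(riemannRochSpace (E - Finsupp.single P 1)).comap (riemannRochSpace E).subtype,
      ?_, hmem⟩
    rw [hs]
    exact Finset.mem_image_of_mem _ hP
  obtain ⟨P₀, hP₀⟩ := hT
  have hf0 : (f : F) ≠ 0 := fun h => hfP P₀ hP₀ (h ▸ Submodule.zero_mem _)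
  have h1 : ∀ v : Place K F, -E v ≤ v.ord (f : F) := (mem_L_of_ne_zero hf0).mp f.2
  refine ⟨(f : F), hf0, h1, fun P hP => ?_⟩
  have h2 := hfP P hP
  rw [mem_L_of_ne_zero hf0] at h2
  simp only [not_forall, not_le] at h2
  obtain ⟨v, hv⟩ := h2
  by_cases hvP : v = P
  · subst hvP
    rw [Finsupp.sub_apply, Finsupp.single_eq_same] at hv
    have := h1 v
    omega
  · rw [Finsupp.sub_apply, Finsupp.single_eq_of_ne hvP, sub_zero] at hv
    have := h1 v
    omega

/-- The degree of the pole divisor of `f` is at most the norm of the divisor of `f`. -/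
theorem degree_poleDiv_le (htr : Algebra.trdeg K F = 1) (f : F) :
    Divisor.degree (RiemannAux.poleDiv K f) ≤ (norm1 (divOf K f) : ℤ) := by
  classical
  rw [degree_eq_sum_support htr]
  have hsub : (RiemannAux.poleDiv K f).support ⊆ (divOf K f).support := by
    intro v hv
    rw [Finsupp.mem_support_iff] at hv ⊢
    rw [RiemannAux.poleDiv_apply htr] at hv
    rw [divOf_apply htr]
    intro h0
    apply hv
    rw [h0]
    simp
  have h1 : ∑ v ∈ (RiemannAux.poleDiv K f).support, RiemannAux.poleDiv K f v
      ≤ ∑ v ∈ (divOf K f).support, RiemannAux.poleDiv K f v :=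
    Finset.sum_le_sum_of_subset_of_nonneg hsub
      (fun v _ _ => Finsupp.le_def.mp (RiemannAux.poleDiv_nonneg K f) v)
  refine h1.trans ?_
  unfold norm1 Finsupp.sum
  push_cast
  refine Finset.sum_le_sum fun v _ => ?_
  rw [RiemannAux.poleDiv_apply htr, divOf_apply htr]
  rcases abs_cases (v.ord f) with ⟨h, _⟩ | ⟨h, _⟩ <;> rw [h] <;> omega

/-- **Denominators**: a function `f ≠ 0` whose divisor has norm at most `B` is a quotient of two
sections `f s'` and `s'` of `L(M o)`, `M = M(B)`, with `s'` of order zero at the points `Q ≠ o`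
of a given finite set `S` which are neither zeros nor poles of `f`. -/
theorem exists_denominator (htr : Algebra.trdeg K F = 1) (o : Place K F) (B : ℕ) :
    ∃ M : ℕ, ∀ f : F, f ≠ 0 → norm1 (divOf K f) ≤ B → ∀ S : Finset (Place K F),
      ∃ s' : F, s' ≠ 0 ∧ s' ∈ riemannRochSpace (Finsupp.single o (M : ℤ)) ∧
        f * s' ∈ riemannRochSpace (Finsupp.single o (M : ℤ)) ∧
        ∀ Q ∈ S, Q ≠ o → Q.ord f = 0 → Q.ord s' = 0 := by
  classical
  obtain ⟨c, hc⟩ := riemann_eq_of_large (K := K) (F := F) htr
  refine ⟨B + (c.toNat + 1), fun f hf hB S => ?_⟩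
  have hpole := degree_poleDiv_le htr f
  obtain ⟨E, hE⟩ : ∃ E : Divisor K F,
      E = Finsupp.single o ((B + (c.toNat + 1) : ℕ) : ℤ) - RiemannAux.poleDiv K f := ⟨_, rfl⟩
  have hdegE : c + 1 ≤ Divisor.degree E := by
    rw [hE, map_sub, Divisor.degree_single, Fermat.Agent.S24.FF.deg_eq_one htr o]
    have := Int.self_le_toNat c
    have hB' : (norm1 (divOf K f) : ℤ) ≤ B := by exact_mod_cast hB
    push_cast
    omega
  obtain ⟨s', hs'0, h1, h2⟩ := exists_exact_section htr hc E hdegE (insert o S)
    (Finset.insert_nonempty _ _)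
  have hEv : ∀ v : Place K F, E v
      = (Finsupp.single o ((B + (c.toNat + 1) : ℕ) : ℤ) : Divisor K F) v
        - max (-v.ord f) 0 := by
    intro v
    rw [hE, Finsupp.sub_apply, RiemannAux.poleDiv_apply htr]
  refine ⟨s', hs'0, ?_, ?_, ?_⟩
  · rw [mem_L_of_ne_zero hs'0]
    intro v
    have := h1 v
    rw [hEv v] at this
    have := le_max_right (-v.ord f) 0
    omega
  · rw [mem_L_of_ne_zero (mul_ne_zero hf hs'0)]
    intro v
    rw [v.ord_mul hf hs'0]
    have := h1 v
    rw [hEv v] at this
    have := le_max_left (-v.ord f) 0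
    omega
  · intro Q hQ hQo hQf
    have h3 := h2 Q (Finset.mem_insert_of_mem hQ)
    rw [hEv Q, Finsupp.single_eq_of_ne hQo, hQf] at h3
    simpa using h3

end Fermat.Agent.S17.H.Denominator
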