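import Mathlib
import Fermat.Agent.S17.R.Riemann
import Fermat.Agent.S17.R.Places
import Fermat.Agent.S17.H.E.ClassPairing

/-!
# Program MW (statement S17), strand H, block E: the moving lemma

Level-free: `F / K` a function field of one variable over an algebraically closed field `K` of
characteristic zero.  Every divisor `D` of degree zero is linearly equivalent to a divisor
`D' = A - n R₀` of norm at most `2 n` whose support avoids a given finite set `S` of places
(`R₀` a place outside `S`, `A ≥ 0` of degree `n` in the base-point free system `|D + n R₀|`,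
`n` a degree from which Riemann's theorem is an equality).

`moving` is the hypothesis `Moving` of `ClassPairing.exists_quasi_quadratic` for
`D₀ = Divisor.degZero` and `P = Divisor.principal`.
-/

set_option autoImplicit false

namespace Fermat.Agent.S17.H.Moving

open AlgebraicCurve Fermat.Agent.S17.R Fermat.Agent.S17.H.ClassPairing

theorem norm1_single {X : Type*} (P : X) (n : ℤ) : norm1 (Finsupp.single P n) = n.natAbs := by
  unfold norm1
  rw [Finsupp.sum_single_index]
  simp

variable {K F : Type*} [Field K] [Field F] [Algebra K F]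
variable [IsAlgClosed K] [CharZero K] [Algebra.EssFiniteType K F]

/-- The norm of an effective divisor is its degree. -/
theorem norm1_of_nonneg (htr : Algebra.trdeg K F = 1) {A : Divisor K F} (hA : 0 ≤ A) :
    (norm1 A : ℤ) = Divisor.degree A := by
  have h1 : Divisor.degree A = ∑ v ∈ A.support, A v := by
    rw [Fermat.Agent.S24.FF.degree_eq_finsum htr A]
    exact finsum_eq_sum_of_support_subset _ (by intro v hv; simpa using hv)
  rw [h1]
  unfold norm1 Finsupp.sum
  push_cast
  refine Finset.sum_congr rfl fun v _ => ?_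
  exact abs_of_nonneg (Finsupp.le_def.mp hA v)

/-- **The moving lemma**: every class of degree zero has a representative of bounded norm whose
support avoids a given finite set of places. -/
theorem moving (htr : Algebra.trdeg K F = 1) :
    ∃ B₀ : ℕ, Moving (Divisor.degZero (K := K) (F := F))
      (Divisor.principal (K := K) (F := F)) B₀ := by
  classical
  obtain ⟨c, hc⟩ := riemann_eq_of_large (K := K) (F := F) htr
  obtain ⟨n, hn1, hn2⟩ : ∃ n : ℕ, c + 1 ≤ (n : ℤ) ∧ (gR K F : ℤ) + 1 ≤ (n : ℤ) := by
    refine ⟨c.toNat + gR K F + 1, ?_, ?_⟩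
    · have := Int.self_le_toNat c
      push_cast
      omega
    · push_cast
      omega
  refine ⟨2 * n, ?_⟩
  intro D hD S
  obtain ⟨R₀, hR₀⟩ := exists_place_notMem htr S
  obtain ⟨A₀, hA₀⟩ : ∃ A₀ : Divisor K F, A₀ = D + Finsupp.single R₀ (n : ℤ) := ⟨_, rfl⟩
  have hdegA₀ : Divisor.degree A₀ = n := by
    rw [hA₀, map_add, Divisor.mem_degZero.mp hD, Divisor.degree_single,
      Fermat.Agent.S24.FF.deg_eq_one htr R₀]
    simp
  have := finite_L htr A₀
  have hl : (Module.finrank K ↥(riemannRochSpace A₀) : ℤ) = n + 1 - gR K F := by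
    rw [hc A₀ (by rw [hdegA₀]; omega), hdegA₀]
  have hlP : ∀ P : Place K F,
      (Module.finrank K ↥(riemannRochSpace (A₀ - Finsupp.single P 1)) : ℤ) = n - gR K F := by
    intro P
    have hd : Divisor.degree (A₀ - Finsupp.single P 1) = n - 1 := by
      rw [map_sub, hdegA₀, Divisor.degree_single, Fermat.Agent.S24.FF.deg_eq_one htr P]
      simp
    rw [hc _ (by rw [hd]; omega), hd]
    ring
  obtain ⟨T, hT⟩ : ∃ T : Finset (Place K F), T = insert R₀ S := ⟨_, rfl⟩
  obtain ⟨s, hs⟩ : ∃ s : Finset (Submodule K ↥(riemannRochSpace A₀)), s = T.image fun P =>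
      (riemannRochSpace (A₀ - Finsupp.single P 1)).comap (riemannRochSpace A₀).subtype :=
    ⟨_, rfl⟩
  have htop : (⊤ : Submodule K ↥(riemannRochSpace A₀)) ∉ s := by
    intro htop
    rw [hs] at htop
    obtain ⟨P, -, hP⟩ := Finset.mem_image.mp htop
    have hle : riemannRochSpace A₀ ≤ riemannRochSpace (A₀ - Finsupp.single P 1) := by
      intro f hf
      have h : (⟨f, hf⟩ : ↥(riemannRochSpace A₀)) ∈
          (riemannRochSpace (A₀ - Finsupp.single P 1)).comap (riemannRochSpace A₀).subtype := by
        rw [hP]
        trivial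
      exact h
    have := finite_L htr (A₀ - Finsupp.single P 1)
    have h1 := Submodule.finrank_mono hle
    have h2 := hlP P
    omega
  have hne := Subspace.biUnion_ne_univ_of_top_notMem htop
  obtain ⟨f, hf⟩ := (Set.ne_univ_iff_exists_notMem _).mp hne
  have hfP : ∀ P ∈ T, (f : F) ∉ riemannRochSpace (A₀ - Finsupp.single P 1) := by
    intro P hP hmem
    apply hf
    simp only [Set.mem_iUnion]
    refine ⟨(riemannRochSpace (A₀ - Finsupp.single P 1)).comap (riemannRochSpace A₀).subtype,
      ?_, hmem⟩
    rw [hs]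
    exact Finset.mem_image_of_mem _ hP
  have hR₀T : R₀ ∈ T := by
    rw [hT]
    exact Finset.mem_insert_self _ _
  have hf0 : (f : F) ≠ 0 := fun h => hfP R₀ hR₀T (h ▸ Submodule.zero_mem _)
  have h1 : ∀ v : Place K F, -A₀ v ≤ v.ord (f : F) := (mem_L_of_ne_zero hf0).mp f.2
  have hordP : ∀ P ∈ T, P.ord (f : F) = -A₀ P := by
    intro P hP
    have h2 := hfP P hP
    rw [mem_L_of_ne_zero hf0] at h2
    simp only [not_forall, not_le] at h2
    obtain ⟨v, hv⟩ := h2
    by_cases hvP : v = P
    · subst hvP
      rw [Finsupp.sub_apply, Finsupp.single_eq_same] at hv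
      have := h1 v
      omega
    · rw [Finsupp.sub_apply, Finsupp.single_eq_of_ne hvP, sub_zero] at hv
      have := h1 v
      omega
  -- the moved representative
  obtain ⟨A, hA⟩ : ∃ A : Divisor K F, A = A₀ + divOf K (f : F) := ⟨_, rfl⟩
  have hA0 : 0 ≤ A := by
    rw [Finsupp.le_def]
    intro v
    rw [hA, Finsupp.add_apply, divOf_apply htr, Finsupp.zero_apply]
    have := h1 v
    omega
  have hAT : ∀ P ∈ T, A P = 0 := by
    intro P hP
    rw [hA, Finsupp.add_apply, divOf_apply htr, hordP P hP]
    omega
  have hAdeg : Divisor.degree A = n := by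
    rw [hA, map_add, hdegA₀, degree_divOf htr, add_zero]
  have hAnorm : norm1 A = n := by
    have := norm1_of_nonneg htr hA0
    rw [hAdeg] at this
    exact_mod_cast this
  have hD' : D + divOf K (f : F) = A - Finsupp.single R₀ (n : ℤ) := by
    have h : D = A₀ - Finsupp.single R₀ (n : ℤ) := by
      rw [hA₀]
      abel
    rw [hA, h]
    abel
  refine ⟨D + divOf K (f : F), ?_, ?_, ?_, ?_⟩
  · rw [Divisor.mem_degZero, map_add, Divisor.mem_degZero.mp hD, degree_divOf htr, add_zero]
  · rw [add_sub_cancel_left]
    exact divOf_mem_principal htr hf0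
  · rw [hD']
    refine (norm1_sub_le _ _).trans ?_
    rw [hAnorm, norm1_single]
    simp
    omega
  · rw [Finset.disjoint_left]
    intro P hP hPS
    rw [Finsupp.mem_support_iff, hD', Finsupp.sub_apply] at hP
    apply hP
    have hPT : P ∈ T := by
      rw [hT]
      exact Finset.mem_insert_of_mem hPS
    have hne : P ≠ R₀ := fun h => hR₀ (h ▸ hPS)
    rw [hAT P hPT, Finsupp.single_eq_of_ne hne, sub_zero]

end Fermat.Agent.S17.H.Moving
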