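import Mathlib
import Fermat.Agent.S17.H.E.ClassPairingAt
import Fermat.Agent.S17.H.E.Moving

/-!
# Program MW (statement S17), strand H, block E: the height on `Pic0` (E-inst)

Level-free: `F / K` a function field of one variable over an algebraically closed field `K` of
characteristic zero, `o` a place (the base point `∞`), `b` a symmetric function of two places
(for strand H: `b P Q = D(P, Q)` for `P ≠ Q` both `≠ ∞`, `b ∞ Q = H(Q)`, `b ∞ ∞ = 0`).

`exists_height`: if `b` satisfies the pointwise global distance formula `hG` for principal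
divisors of bounded norm (blocks D1 + D2), then there is `q : Pic0 K F → ℝ` with the
quasi-parallelogram law, such that `q (Pic0.mk D) = -pair b D D' + O(1)` for every pair `D`,
`D'` of representatives of bounded norm whose supports meet at most in `o`.

For `K = Qb`, `F = Fb N` the type `Pic0 K F` is `JZero N`, and the first conclusion is the
hypothesis `H` of `DescentShape.heightDescent_of_parallelogram` (restricted to `MW N`).
-/

set_option autoImplicit false

namespace Fermat.Agent.S17.H.EInst

open AlgebraicCurve Fermat.Agent.S17.H.ClassPairing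

variable {K F : Type*} [Field K] [Field F] [Algebra K F]
variable [IsAlgClosed K] [CharZero K] [Algebra.EssFiniteType K F]

/-- The sum of the coefficients of a divisor of degree zero is zero. -/
theorem sum_eq_zero_of_mem_degZero (htr : Algebra.trdeg K F = 1) {E : Divisor K F}
    (hE : E ∈ Divisor.degZero (K := K) (F := F)) : (E.sum fun _ n => n) = 0 := by
  have h1 : Divisor.degree E = ∑ v ∈ E.support, E v := by
    rw [Fermat.Agent.S24.FF.degree_eq_finsum htr E]
    exact finsum_eq_sum_of_support_subset _ (by intro v hv; simpa using hv)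
  rw [Divisor.mem_degZero, h1] at hE
  exact hE

/-- **E-inst**: the quasi-quadratic height on `Pic0 K F` from the pointwise global distance
formula for principal divisors. -/
theorem exists_height (htr : Algebra.trdeg K F = 1) (o : Place K F)
    (b : Place K F → Place K F → ℝ) (hb : ∀ x y, b x y = b y x)
    (hG : ∀ B : ℕ, ∃ C : ℝ, ∀ D ∈ Divisor.principal (K := K) (F := F), norm1 D ≤ B →
      ∀ S : Finset (Place K F), (∀ x ∈ S, D x ≠ 0 → x = o) →
      ∃ c : ℝ, ∀ Q ∈ S, |(D.sum fun x m => (m : ℝ) * b x Q) - c| ≤ C) :
    ∃ (q : Pic0 K F → ℝ) (C : ℝ),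
      (∀ x y, |q (x + y) + q (x - y) - 2 * (q x + q y)| ≤ C) ∧
      ∀ B : ℕ, ∃ C' : ℝ, ∀ D D' : ↥(Divisor.degZero (K := K) (F := F)),
        norm1 D.1 ≤ B → norm1 D'.1 ≤ B → MeetAt o D.1 D'.1 →
        D'.1 - D.1 ∈ Divisor.principal (K := K) (F := F) →
        |q (Pic0.mk D) + pair b D.1 D'.1| ≤ C' := by
  obtain ⟨B₀, hM⟩ := Fermat.Agent.S17.H.Moving.moving (K := K) (F := F) htr
  exact exists_quasi_quadratic_at o b hb _ _
    (udOffAt_of_pointwise o b _ _ (fun E hE => sum_eq_zero_of_mem_degZero htr hE) hG) B₀ hM

end Fermat.Agent.S17.H.EInst
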